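/-
S59 / block [D'] (helper25).  Prefix `m59d_`.

The CHAIN datum of the S59 engine (ENGINE v3, findings #5194/#5199), in MATRIX form.

Levels `0..m` (`T_0 ⊂ … ⊂ T_m = B'`), modules `M_k = (S/𝔟)^(d k)` with `R = R_∞` acting through
`α k`; for each step `k : Fin m` the new quotient `N_k = (S/𝔟)^(e k)` (`= coker i_l` in a basis)
with action `αN k` and

* `p k : M_{k+1} ↠ N_k` with section `q k`, `R`-linear;
* `j' k : M_{k+1} ↠ M_k` (`= α_* - ε β_*`) with section `ρ' k`, `R`-linear;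
* `j' k ∘ (1 - q k ∘ p k) = X k ∘ Z k`  (`j' i = X (x - ε y)`), `X k` commuting with the action of
  `R` on `M_k` and `(X k - s_k) ^ E = 0`: at `l ≠ p`, `X k = s_l = (l+1) - ε T_l` exactly
  (`X := α (s k)`); at the `p`-step `X = (p+1) - ε₀ T_p` and only the nilpotent congruence is
  available at the Taylor–Wiles levels (findings #5329 (1), #5341 (R-2));
* `αN k (r k) = 0`  ((I3));
* `α 0 (un i) = 0`, `un i - u i ∈ 𝔠 i`  (the base level is unramified at `B'`: `un = u`, `𝔠 = ⊥`;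
  on the flat side at `p`, case (III), only a level-dependent `un ≡ v mod (λ) + 𝔪²` is killed:
  referee's required change, finding #5308 (4));
* `π : R → T₀'`, `α m f mod 𝔞 = j (π f)`, `π (ν c) = β c` for the FIXED local coordinates,
  `π (νn c) = γ c` for level-dependent preimages of generators of `T₀'`, `π ∘ σ = θ` fixed.
-/
import Mathlib

set_option autoImplicit false

namespace Fermat.Agent.M59

universe uO uS uR uT

variable (O : Type uO) [CommRing O]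
  (S : Type uS) [CommRing S] [Algebra O S]
  (R : Type uR) [CommRing R] [Algebra O R]
  (T0 : Type uT) [CommRing T0] [Algebra O T0]
  {m : ℕ} (d : Fin (m + 1) → ℕ) (e : Fin m → ℕ) (EE : ℕ)

/-- **chain level datum** over `S ⧸ 𝔟` (`𝔟 ≤ 𝔞`). -/
structure m59d_ChainLevel (𝔞 𝔟 : Ideal S) (h𝔟𝔞 : 𝔟 ≤ 𝔞)
    (j : T0 →+* Matrix (Fin (d (Fin.last m))) (Fin (d (Fin.last m))) (S ⧸ 𝔞))
    (θ : S →+* T0) {ι κ K : Type*} (u : ι → R) (𝔠 : ι → Ideal R) (ν : κ → R) (β : κ → T0)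
    (γ : K → T0) (r s : Fin m → R) where
  σ : S →+* R
  σ_algebraMap : ∀ a : O, σ (algebraMap O S a) = algebraMap O R a
  α : ∀ k : Fin (m + 1), R →+* Matrix (Fin (d k)) (Fin (d k)) (S ⧸ 𝔟)
  α_σ : ∀ k t, α k (σ t) = Matrix.scalar (Fin (d k)) (Ideal.Quotient.mk 𝔟 t)
  αN : ∀ k : Fin m, R →+* Matrix (Fin (e k)) (Fin (e k)) (S ⧸ 𝔟)
  αN_σ : ∀ k t, αN k (σ t) = Matrix.scalar (Fin (e k)) (Ideal.Quotient.mk 𝔟 t)
  p : ∀ k : Fin m, Matrix (Fin (e k)) (Fin (d k.succ)) (S ⧸ 𝔟)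
  q : ∀ k : Fin m, Matrix (Fin (d k.succ)) (Fin (e k)) (S ⧸ 𝔟)
  j' : ∀ k : Fin m, Matrix (Fin (d k.castSucc)) (Fin (d k.succ)) (S ⧸ 𝔟)
  ρ' : ∀ k : Fin m, Matrix (Fin (d k.succ)) (Fin (d k.castSucc)) (S ⧸ 𝔟)
  Z : ∀ k : Fin m, Matrix (Fin (d k.castSucc)) (Fin (d k.succ)) (S ⧸ 𝔟)
  X : ∀ k : Fin m, Matrix (Fin (d k.castSucc)) (Fin (d k.castSucc)) (S ⧸ 𝔟)
  p_q : ∀ k, p k * q k = 1
  p_α : ∀ k f, p k * α k.succ f = αN k f * p k
  j'_ρ' : ∀ k, j' k * ρ' k = 1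
  j'_α : ∀ k f, j' k * α k.succ f = α k.castSucc f * j' k
  X_comm : ∀ k f, X k * α k.castSucc f = α k.castSucc f * X k
  X_nil : ∀ k, (X k - α k.castSucc (s k)) ^ EE = 0
  j'_Z : ∀ k, j' k * (1 - q k * p k) = X k * Z k
  αN_r : ∀ k, αN k (r k) = 0
  un : ι → R
  α_un : ∀ i, α 0 (un i) = 0
  un_u : ∀ i, un i - u i ∈ 𝔠 i
  π : R →+* T0
  α_mod : ∀ f : R, (α (Fin.last m) f).map (Ideal.Quotient.factor h𝔟𝔞) = j (π f)
  π_ν : ∀ c, π (ν c) = β c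
  νn : K → R
  π_νn : ∀ c, π (νn c) = γ c
  π_σ : ∀ t, π (σ t) = θ t

/-- **patched chain datum** over `S`. -/
structure m59d_ChainLimit (𝔞 : Ideal S)
    (j : T0 →+* Matrix (Fin (d (Fin.last m))) (Fin (d (Fin.last m))) (S ⧸ 𝔞))
    (θ : S →+* T0) {ι κ K : Type*} (u : ι → R) (𝔠 : ι → Ideal R) (ν : κ → R) (β : κ → T0)
    (γ : K → T0) (r s : Fin m → R) where
  σ : S →+* R
  σ_algebraMap : ∀ a : O, σ (algebraMap O S a) = algebraMap O R a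
  α : ∀ k : Fin (m + 1), R →+* Matrix (Fin (d k)) (Fin (d k)) S
  α_σ : ∀ k t, α k (σ t) = Matrix.scalar (Fin (d k)) t
  αN : ∀ k : Fin m, R →+* Matrix (Fin (e k)) (Fin (e k)) S
  αN_σ : ∀ k t, αN k (σ t) = Matrix.scalar (Fin (e k)) t
  p : ∀ k : Fin m, Matrix (Fin (e k)) (Fin (d k.succ)) S
  q : ∀ k : Fin m, Matrix (Fin (d k.succ)) (Fin (e k)) S
  j' : ∀ k : Fin m, Matrix (Fin (d k.castSucc)) (Fin (d k.succ)) S
  ρ' : ∀ k : Fin m, Matrix (Fin (d k.succ)) (Fin (d k.castSucc)) S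
  Z : ∀ k : Fin m, Matrix (Fin (d k.castSucc)) (Fin (d k.succ)) S
  X : ∀ k : Fin m, Matrix (Fin (d k.castSucc)) (Fin (d k.castSucc)) S
  p_q : ∀ k, p k * q k = 1
  p_α : ∀ k f, p k * α k.succ f = αN k f * p k
  j'_ρ' : ∀ k, j' k * ρ' k = 1
  j'_α : ∀ k f, j' k * α k.succ f = α k.castSucc f * j' k
  X_comm : ∀ k f, X k * α k.castSucc f = α k.castSucc f * X k
  X_nil : ∀ k, (X k - α k.castSucc (s k)) ^ EE = 0
  j'_Z : ∀ k, j' k * (1 - q k * p k) = X k * Z k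
  αN_r : ∀ k, αN k (r k) = 0
  un : ι → R
  α_un : ∀ i, α 0 (un i) = 0
  un_u : ∀ i, un i - u i ∈ 𝔠 i
  π : R →+* T0
  α_mod : ∀ f : R, (α (Fin.last m) f).map (Ideal.Quotient.mk 𝔞) = j (π f)
  π_ν : ∀ c, π (ν c) = β c
  νn : K → R
  π_νn : ∀ c, π (νn c) = γ c
  π_σ : ∀ t, π (σ t) = θ t

end Fermat.Agent.M59
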