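/-
S59 / block [D'] (helper25).  Prefix `m59d_`.

The abstract WALK of the engine (finding #5194): one step and the chain induction.
-/
import Mathlib
import Fermat.Agent.TW.Patch.CayleyHamilton
import Fermat.Agent.TW.Patch.EndgameSupp
import Fermat.Agent.TW.Patch.MinPrimeSupport

set_option autoImplicit false
set_option linter.style.haveILetI false

namespace Fermat.Agent.M59

open Fermat.Agent.TW

open Polynomial Matrix

section CH

variable {R S : Type*} [CommRing R] [CommRing S] {d : ℕ}

/-- **Cayley–Hamilton with coefficients in `R`**: if `f • M ⊆ s • M` for the `R`-module `M = S^d`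
(action through `α`), then `f ^ d ∈ ker α + (s)`. -/
theorem m59d_pow_mem_of_eq_mul (α : R →+* Matrix (Fin d) (Fin d) S) (σ : S →+* R)
    (hασ : ∀ t : S, α (σ t) = Matrix.scalar (Fin d) t) (f s : R)
    (Y : Matrix (Fin d) (Fin d) S) (h : α f = α s * Y) :
    f ^ d ∈ RingHom.ker α ⊔ Ideal.span {s} := by
  classical
  -- `C i k := s * σ (Y i k)`, a matrix over `R` with entries in `(s)`
  set C : Matrix (Fin d) (Fin d) R := fun i k => s * σ (Y i k) with hC
  -- `α.mapMatrix (scalar f - C)` kills the "diagonal" vector: we use the adjugate identity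
  -- in the commutative ring `R`: `det (scalar f - C)` acts as zero.
  set D : Matrix (Fin d) (Fin d) R := Matrix.scalar (Fin d) f - C with hD
  -- direct computation: `α f = ∑ l, α (C l k) …` is encoded entrywise:
  have hent : ∀ i k : Fin d, (α f) i k = ∑ l : Fin d, (α (C l k)) i l := by
    intro i k
    rw [h, Matrix.mul_apply]
    refine Finset.sum_congr rfl fun l _ => ?_
    rw [hC]
    simp only
    rw [map_mul, hασ, Matrix.mul_apply]
    rw [Finset.sum_eq_single l]
    · rw [Matrix.scalar_apply, Matrix.diagonal_apply_eq]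
    · intro b _ hb
      rw [Matrix.scalar_apply, Matrix.diagonal_apply_ne _ hb, mul_zero]
    · intro hl; exact absurd (Finset.mem_univ l) hl
  -- hence `∑ l, (α (D l k)) i l = 0`
  have hD0 : ∀ i k : Fin d, ∑ l : Fin d, (α (D l k)) i l = 0 := by
    intro i k
    have : ∀ l : Fin d, (α (D l k)) i l =
        (α ((Matrix.scalar (Fin d) f) l k)) i l - (α (C l k)) i l := by
      intro l
      rw [hD, Matrix.sub_apply, map_sub, Matrix.sub_apply]
    simp_rw [this]
    rw [Finset.sum_sub_distrib, ← hent i k]
    rw [Finset.sum_eq_single k]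
    · rw [Matrix.scalar_apply, Matrix.diagonal_apply_eq, sub_self]
    · intro b _ hb
      rw [Matrix.scalar_apply, Matrix.diagonal_apply_ne _ hb, map_zero, Matrix.zero_apply]
    · intro hk; exact absurd (Finset.mem_univ k) hk
  -- adjugate: `∑ k, D l k * adj D k m = det D * δ_{l m}`
  have hdet : ∀ i m : Fin d, (α (D.det)) i m = 0 := by
    intro i m
    have h1 : ∀ l : Fin d, (D * D.adjugate) l m = if l = m then D.det else 0 := by
      intro l
      rw [Matrix.mul_adjugate, Matrix.smul_apply, Matrix.one_apply, smul_eq_mul]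
      split_ifs <;> simp
    -- `∑ l, (α ((D * adj D) l m)) i l = (α (det D)) i m`
    have h2 : ∑ l : Fin d, (α ((D * D.adjugate) l m)) i l = (α D.det) i m := by
      rw [Finset.sum_eq_single m]
      · rw [h1 m, if_pos rfl]
      · intro b _ hb
        rw [h1 b, if_neg hb, map_zero, Matrix.zero_apply]
      · intro hm; exact absurd (Finset.mem_univ m) hm
    rw [← h2]
    -- expand `(D * adj D) l m = ∑ k, D l k * adj D k m`
    have h3 : ∀ l : Fin d, (α ((D * D.adjugate) l m)) i l =
        ∑ k : Fin d, ∑ a : Fin d, (α (D.adjugate k m)) i a * (α (D l k)) a l := by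
      intro l
      rw [Matrix.mul_apply, map_sum, Matrix.sum_apply]
      refine Finset.sum_congr rfl fun k _ => ?_
      rw [mul_comm (D l k), map_mul, Matrix.mul_apply]
    simp_rw [h3]
    rw [Finset.sum_comm]
    refine Finset.sum_eq_zero fun k _ => ?_
    rw [Finset.sum_comm]
    refine Finset.sum_eq_zero fun a _ => ?_
    rw [← Finset.mul_sum, hD0 a k, mul_zero]
  have hker : D.det ∈ RingHom.ker α := by
    rw [RingHom.mem_ker]
    ext i m
    rw [hdet i m, Matrix.zero_apply]
  -- `det (scalar f - C) ≡ f ^ d` modulo `(s)`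
  have hmod : f ^ d - D.det ∈ Ideal.span {s} := by
    rw [← Ideal.Quotient.eq_zero_iff_mem, map_sub, map_pow, RingHom.map_det]
    have : (Ideal.Quotient.mk (Ideal.span {s})).mapMatrix D =
        Matrix.scalar (Fin d) (Ideal.Quotient.mk (Ideal.span {s}) f) := by
      ext i k
      rw [RingHom.mapMatrix_apply, Matrix.map_apply, hD, Matrix.sub_apply, map_sub]
      have hCz : Ideal.Quotient.mk (Ideal.span {s}) (C i k) = 0 := by
        rw [Ideal.Quotient.eq_zero_iff_mem, hC]
        exact Ideal.mul_mem_right _ _ (Ideal.mem_span_singleton_self s)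
      rw [hCz, sub_zero]
      by_cases hik : i = k
      · subst hik
        rw [Matrix.scalar_apply, Matrix.diagonal_apply_eq, Matrix.scalar_apply,
          Matrix.diagonal_apply_eq]
      · rw [Matrix.scalar_apply, Matrix.diagonal_apply_ne _ hik, map_zero, Matrix.scalar_apply,
          Matrix.diagonal_apply_ne _ hik]
    rw [this, Matrix.scalar_apply, Matrix.det_diagonal, Finset.prod_const, Finset.card_univ,
      Fintype.card_fin, sub_self]
  have : f ^ d = D.det + (f ^ d - D.det) := by ring
  rw [this]
  exact Submodule.add_mem _ (Ideal.mem_sup_left hker) (Ideal.mem_sup_right hmod)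

end CH

end Fermat.Agent.M59
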