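/-
S59 / block [D'] (helper25).  Prefix `m59d_`.

The abstract WALK of the engine (finding #5194).

* `m59d_minimal_of_dim` : in a noetherian local ring, a prime `P` with `dim R ≤ dim (R ⧸ P)` is a
  minimal prime;
* `m59d_step` : ONE STEP of the walk: `ker α ≤ ker y`, `y s = 0`, the new-quotient datum
  `(αN, p, q, j', ρ', Z, X)` with `αN r = 0`, `j' (1 - q p) = X Z`, `X` commuting with `α`,
  `(X - α s) ^ E = 0` (`X = α s` away from `p`; the nilpotent error is the `p`-step, finding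
  #5329 (1) / #5341 (R-2)), `(B1)`, and `(LOC)` give `ker α' ≤ ker y'`;
* `m59d_walk` : the chain induction.
-/
import Mathlib
import Fermat.Agent.M59.D.Step

set_option autoImplicit false
set_option linter.style.haveILetI false

namespace Fermat.Agent.M59

open Fermat.Agent.TW

open Matrix

/-- in a noetherian local ring, a prime `P` with `dim R ≤ dim (R ⧸ P)` is a minimal prime. -/
theorem m59d_minimal_of_dim {R : Type*} [CommRing R] [IsNoetherianRing R] [IsLocalRing R]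
    (P : Ideal R) [hP : P.IsPrime] (h : ringKrullDim R ≤ ringKrullDim (R ⧸ P)) :
    P ∈ minimalPrimes R := by
  classical
  have hq : ringKrullDim (R ⧸ P) ≤ ringKrullDim R := ringKrullDim_quotient_le P
  have hbot : ringKrullDim (R ⧸ P) ≠ ⊥ := by
    intro hb
    have h0 : (0 : WithBot ℕ∞) ≤ ringKrullDim (R ⧸ P) := ringKrullDim_nonneg_of_nontrivial
    rw [hb] at h0
    exact absurd h0 (by simp)
  have htop : ringKrullDim (R ⧸ P) ≠ ⊤ := by
    intro ht
    rw [ht, top_le_iff] at hq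
    exact ringKrullDim_ne_top hq
  obtain ⟨x, hx⟩ := WithBot.ne_bot_iff_exists.1 hbot
  have hxt : x ≠ ⊤ := fun h' => htop (by rw [← hx, h']; rfl)
  obtain ⟨n, rfl⟩ := ENat.ne_top_iff_exists.1 hxt
  have hn : ((n : ℕ) : WithBot ℕ∞) = ringKrullDim (R ⧸ P) := by
    rw [← hx]; rfl
  have hle : ((n : ℕ) : WithBot ℕ∞) ≤ Order.krullDim (PrimeSpectrum (R ⧸ P)) := by
    rw [hn]; rfl
  obtain ⟨l, hl⟩ := (Order.le_krullDim_iff).1 hle
  have hdimn : ringKrullDim R ≤ ((n : ℕ) : WithBot ℕ∞) := by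
    rw [hn]; exact h
  have hmin := twd_minimal_of_chain P hdimn l hl
  -- `P ≤ comap (head)`, and the latter is minimal
  have hPle : P ≤ l.head.asIdeal.comap (Ideal.Quotient.mk P) := by
    intro x hx
    rw [Ideal.mem_comap, Ideal.Quotient.eq_zero_iff_mem.2 hx]
    exact Ideal.zero_mem _
  have heq : l.head.asIdeal.comap (Ideal.Quotient.mk P) = P :=
    le_antisymm (hmin.2 ⟨hP, bot_le⟩ hPle) hPle
  rw [← heq]
  exact hmin

section Step

variable {S : Type*} [CommRing S] [IsDomain S]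
  {R : Type*} [CommRing R] [IsNoetherianRing R] [IsLocalRing R]
  {E : Type*} [CommRing E] [IsDomain E]
  {d d' e : ℕ}

/-- **ONE STEP OF THE WALK.** -/
theorem m59d_step (σ : S →+* R)
    (α : R →+* Matrix (Fin d) (Fin d) S) (hασ : ∀ t, α (σ t) = Matrix.scalar (Fin d) t)
    (α' : R →+* Matrix (Fin d') (Fin d') S)
    (αN : R →+* Matrix (Fin e) (Fin e) S) (hαNσ : ∀ t, αN (σ t) = Matrix.scalar (Fin e) t)
    (p : Matrix (Fin e) (Fin d') S) (q : Matrix (Fin d') (Fin e) S)
    (j' : Matrix (Fin d) (Fin d') S) (ρ' : Matrix (Fin d') (Fin d) S)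
    (Z : Matrix (Fin d) (Fin d') S) (X : Matrix (Fin d) (Fin d) S) (EE : ℕ) (r s : R)
    (hpq : p * q = 1) (hp : ∀ f, p * α' f = αN f * p)
    (hjρ : j' * ρ' = 1) (hj : ∀ f, j' * α' f = α f * j')
    (hXc : ∀ f, X * α f = α f * X) (hXn : (X - α s) ^ EE = 0)
    (hZ : j' * (1 - q * p) = X * Z) (hr : αN r = 0)
    (hdim : ringKrullDim R ≤ ringKrullDim S)
    (y y' : R →+* E) (hy : RingHom.ker α ≤ RingHom.ker y) (hs : y s = 0)
    (hLOC : ∀ P : Ideal R, P ∈ minimalPrimes R → ringKrullDim S ≤ ringKrullDim (R ⧸ P) →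
      (∀ t : S, σ t ∈ P → t = 0) → r ∈ P → P ≤ RingHom.ker y → P ≤ RingHom.ker y') :
    RingHom.ker α' ≤ RingHom.ker y' := by
  classical
  haveI hyprime : (RingHom.ker y).IsPrime := RingHom.ker_isPrime y
  -- (W1') ker α' ≤ ker αN
  have hW1 : RingHom.ker α' ≤ RingHom.ker αN := by
    intro f hf
    rw [RingHom.mem_ker] at hf ⊢
    have h1 : αN f = αN f * (p * q) := by rw [hpq, Matrix.mul_one]
    rw [h1, ← Matrix.mul_assoc, ← hp f, hf, Matrix.mul_zero, Matrix.zero_mul]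
  -- (W3') + Cayley–Hamilton: ker αN ≤ ker y
  have hW3 : RingHom.ker αN ≤ RingHom.ker y := by
    intro f hf
    rw [RingHom.mem_ker] at hf
    have hpf : p * α' f = 0 := by rw [hp f, hf, Matrix.zero_mul]
    have h1 : α f = X * (Z * α' f * ρ') := by
      calc α f = α f * (j' * ρ') := by rw [hjρ, Matrix.mul_one]
        _ = j' * α' f * ρ' := by rw [← Matrix.mul_assoc, ← hj f]
        _ = j' * ((1 - q * p) + q * p) * α' f * ρ' := by rw [sub_add_cancel, Matrix.mul_one]
        _ = j' * (1 - q * p) * α' f * ρ' + j' * q * (p * α' f) * ρ' := by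
          rw [Matrix.mul_add, Matrix.add_mul, Matrix.add_mul]
          congr 1
          simp only [Matrix.mul_assoc]
        _ = X * (Z * α' f * ρ') := by
          rw [hpf, Matrix.mul_zero, Matrix.zero_mul, add_zero, hZ]
          simp only [Matrix.mul_assoc]
    -- `(α f) ^ i = X ^ i * B ^ i`
    set B : Matrix (Fin d) (Fin d) S := Z * α' f * ρ' with hB
    have hcomm : Commute X (α f) := hXc f
    have hpow : ∀ i : ℕ, (α f) ^ i = X ^ i * B ^ i := by
      intro i
      induction i with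
      | zero => simp
      | succ i ih =>
        have hc : α f * X ^ i = X ^ i * α f := ((hcomm.pow_left i).eq).symm
        calc (α f) ^ (i + 1) = α f * (α f) ^ i := pow_succ' _ _
          _ = α f * X ^ i * B ^ i := by rw [ih, mul_assoc]
          _ = X ^ i * (X * B) * B ^ i := by rw [hc, ← h1]
          _ = X ^ (i + 1) * B ^ (i + 1) := by
            rw [pow_succ, pow_succ']
            simp only [mul_assoc]
    -- `X ^ EE = α s * Y'`
    have hXs : Commute X (α s) := hXc s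
    have hXn' : Commute X (X - α s) := (Commute.refl X).sub_right hXs
    have hgeom := hXn'.mul_geom_sum₂ EE
    rw [hXn, sub_zero, sub_sub_cancel] at hgeom
    have h1' : α (f ^ EE) = α s * ((∑ i ∈ Finset.range EE, X ^ i * (X - α s) ^ (EE - 1 - i)) *
        B ^ EE) := by
      rw [map_pow, hpow EE, ← hgeom, mul_assoc]
    have h2 := m59d_pow_mem_of_eq_mul α σ hασ (f ^ EE) s _ h1'
    have h3 : RingHom.ker α ⊔ Ideal.span {s} ≤ RingHom.ker y := by
      refine sup_le hy ?_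
      rw [Ideal.span_le, Set.singleton_subset_iff]
      exact (RingHom.mem_ker).2 hs
    exact hyprime.mem_of_pow_mem EE (hyprime.mem_of_pow_mem d (h3 h2))
  -- a prime minimal over `ker αN` inside `ker y`
  obtain ⟨P, hPmin, hPle⟩ := Ideal.exists_minimalPrimes_le hW3
  haveI hPprime : P.IsPrime := hPmin.1.1
  obtain ⟨hinter, hPdim⟩ := twd_minimalPrimes_ker_props αN σ hαNσ hPmin
  have hPminR : P ∈ minimalPrimes R := m59d_minimal_of_dim P (hdim.trans hPdim)
  have hrP : r ∈ P := hPmin.1.2 ((RingHom.mem_ker).2 hr)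
  have hPy' : P ≤ RingHom.ker y' := hLOC P hPminR hPdim hinter hrP hPle
  exact hW1.trans (hPmin.1.2.trans hPy')

end Step

section Walk

variable {S : Type*} [CommRing S] [IsDomain S]
  {R : Type*} [CommRing R] [IsNoetherianRing R] [IsLocalRing R]
  {E : Type*} [CommRing E] [IsDomain E]

/-- **THE WALK**: chain induction over the levels `0, …, m`. -/
theorem m59d_walk (m : ℕ) (d e : ℕ → ℕ) (σ : S →+* R)
    (α : ∀ k, R →+* Matrix (Fin (d k)) (Fin (d k)) S)
    (hασ : ∀ k t, α k (σ t) = Matrix.scalar (Fin (d k)) t)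
    (αN : ∀ k, R →+* Matrix (Fin (e k)) (Fin (e k)) S)
    (hαNσ : ∀ k t, αN k (σ t) = Matrix.scalar (Fin (e k)) t)
    (p : ∀ k, Matrix (Fin (e k)) (Fin (d (k + 1))) S)
    (q : ∀ k, Matrix (Fin (d (k + 1))) (Fin (e k)) S)
    (j' : ∀ k, Matrix (Fin (d k)) (Fin (d (k + 1))) S)
    (ρ' : ∀ k, Matrix (Fin (d (k + 1))) (Fin (d k)) S)
    (Z : ∀ k, Matrix (Fin (d k)) (Fin (d (k + 1))) S)
    (X : ∀ k, Matrix (Fin (d k)) (Fin (d k)) S) (EE : ℕ) (r s : ℕ → R)
    (hpq : ∀ k < m, p k * q k = 1) (hp : ∀ k < m, ∀ f, p k * α (k + 1) f = αN k f * p k)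
    (hjρ : ∀ k < m, j' k * ρ' k = 1) (hj : ∀ k < m, ∀ f, j' k * α (k + 1) f = α k f * j' k)
    (hXc : ∀ k < m, ∀ f, X k * α k f = α k f * X k)
    (hXn : ∀ k < m, (X k - α k (s k)) ^ EE = 0)
    (hZ : ∀ k < m, j' k * (1 - q k * p k) = X k * Z k) (hr : ∀ k < m, αN k (r k) = 0)
    (hdim : ringKrullDim R ≤ ringKrullDim S)
    (y : ℕ → R →+* E) (hy0 : RingHom.ker (α 0) ≤ RingHom.ker (y 0))
    (hs : ∀ k < m, y k (s k) = 0)
    (hLOC : ∀ k < m, ∀ P : Ideal R, P ∈ minimalPrimes R →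
      ringKrullDim S ≤ ringKrullDim (R ⧸ P) → (∀ t : S, σ t ∈ P → t = 0) →
      r k ∈ P → P ≤ RingHom.ker (y k) → P ≤ RingHom.ker (y (k + 1))) :
    ∀ k ≤ m, RingHom.ker (α k) ≤ RingHom.ker (y k) := by
  intro k
  induction k with
  | zero => intro _; exact hy0
  | succ k ih =>
    intro hk
    have hkm : k < m := hk
    exact m59d_step σ (α k) (hασ k) (α (k + 1)) (αN k) (hαNσ k) (p k) (q k) (j' k) (ρ' k) (Z k)
      (X k) EE (r k) (s k) (hpq k hkm) (hp k hkm) (hjρ k hkm) (hj k hkm) (hXc k hkm) (hXn k hkm)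
      (hZ k hkm) (hr k hkm) hdim
      (y k) (y (k + 1)) (ih (le_of_lt hkm)) (hs k hkm) (hLOC k hkm)

end Walk

end Fermat.Agent.M59
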