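/-
S59 / block [D'] (helper25).  Prefix `m59d_`.

Index types of the chain datum + the walk in `Fin`-indexed form.
-/
import Mathlib
import Fermat.Agent.M59.D.Walk

set_option autoImplicit false

namespace Fermat.Agent.M59

open Fermat.Agent.TW

/-- index of the ring homs of a chain datum: the levels `0..m` and the `m` new quotients. -/
inductive m59d_HIdx (m : ℕ) : Type
  | lev (k : Fin (m + 1)) : m59d_HIdx m
  | new (k : Fin m) : m59d_HIdx m
  deriving DecidableEq, Fintype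

/-- index of the matrices of a chain datum. -/
inductive m59d_MIdx (m : ℕ) : Type
  | p (k : Fin m) : m59d_MIdx m
  | q (k : Fin m) : m59d_MIdx m
  | j (k : Fin m) : m59d_MIdx m
  | rho (k : Fin m) : m59d_MIdx m
  | Z (k : Fin m) : m59d_MIdx m
  | X (k : Fin m) : m59d_MIdx m
  deriving DecidableEq, Fintype

variable {m : ℕ} (d : Fin (m + 1) → ℕ) (e : Fin m → ℕ)

/-- sizes of the ring homs. -/
abbrev m59d_dH : m59d_HIdx m → ℕ
  | .lev k => d k
  | .new k => e k

/-- numbers of rows. -/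
abbrev m59d_rM : m59d_MIdx m → ℕ
  | .p k => e k
  | .q k => d k.succ
  | .j k => d k.castSucc
  | .rho k => d k.succ
  | .Z k => d k.castSucc
  | .X k => d k.castSucc

/-- numbers of columns. -/
abbrev m59d_cM : m59d_MIdx m → ℕ
  | .p k => d k.succ
  | .q k => e k
  | .j k => d k.succ
  | .rho k => d k.castSucc
  | .Z k => d k.succ
  | .X k => d k.castSucc

section WalkFin

variable {S : Type*} [CommRing S] [IsDomain S]
  {R : Type*} [CommRing R] [IsNoetherianRing R] [IsLocalRing R]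
  {E : Type*} [CommRing E] [IsDomain E]

/-- **THE WALK**, `Fin`-indexed. -/
theorem m59d_walk_fin (σ : S →+* R)
    (α : ∀ k : Fin (m + 1), R →+* Matrix (Fin (d k)) (Fin (d k)) S)
    (hασ : ∀ k t, α k (σ t) = Matrix.scalar (Fin (d k)) t)
    (αN : ∀ k : Fin m, R →+* Matrix (Fin (e k)) (Fin (e k)) S)
    (hαNσ : ∀ k t, αN k (σ t) = Matrix.scalar (Fin (e k)) t)
    (p : ∀ k : Fin m, Matrix (Fin (e k)) (Fin (d k.succ)) S)
    (q : ∀ k : Fin m, Matrix (Fin (d k.succ)) (Fin (e k)) S)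
    (j' : ∀ k : Fin m, Matrix (Fin (d k.castSucc)) (Fin (d k.succ)) S)
    (ρ' : ∀ k : Fin m, Matrix (Fin (d k.succ)) (Fin (d k.castSucc)) S)
    (Z : ∀ k : Fin m, Matrix (Fin (d k.castSucc)) (Fin (d k.succ)) S)
    (X : ∀ k : Fin m, Matrix (Fin (d k.castSucc)) (Fin (d k.castSucc)) S) (EE : ℕ)
    (r s : Fin m → R)
    (hpq : ∀ k, p k * q k = 1) (hp : ∀ k f, p k * α k.succ f = αN k f * p k)
    (hjρ : ∀ k, j' k * ρ' k = 1) (hj : ∀ k f, j' k * α k.succ f = α k.castSucc f * j' k)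
    (hXc : ∀ k f, X k * α k.castSucc f = α k.castSucc f * X k)
    (hXn : ∀ k, (X k - α k.castSucc (s k)) ^ EE = 0)
    (hZ : ∀ k, j' k * (1 - q k * p k) = X k * Z k) (hr : ∀ k, αN k (r k) = 0)
    (hdim : ringKrullDim R ≤ ringKrullDim S)
    (y : Fin (m + 1) → R →+* E) (hy0 : RingHom.ker (α 0) ≤ RingHom.ker (y 0))
    (hs : ∀ k : Fin m, y k.castSucc (s k) = 0)
    (hLOC : ∀ (k : Fin m) (P : Ideal R), P ∈ minimalPrimes R →
      ringKrullDim S ≤ ringKrullDim (R ⧸ P) → (∀ t : S, σ t ∈ P → t = 0) →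
      r k ∈ P → P ≤ RingHom.ker (y k.castSucc) → P ≤ RingHom.ker (y k.succ)) :
    ∀ k : Fin (m + 1), RingHom.ker (α k) ≤ RingHom.ker (y k) := by
  intro k
  induction k using Fin.induction with
  | zero => exact hy0
  | succ k ih =>
    exact m59d_step σ (α k.castSucc) (hασ k.castSucc) (α k.succ) (αN k) (hαNσ k) (p k) (q k)
      (j' k) (ρ' k) (Z k) (X k) EE (r k) (s k) (hpq k) (hp k) (hjρ k) (hj k) (hXc k) (hXn k)
      (hZ k) (hr k) hdim
      (y k.castSucc) (y k.succ) ih (hs k) (hLOC k)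

end WalkFin

end Fermat.Agent.M59
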