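/-
S59 / block [D'] (helper25).  Prefix `m59d_`.

GENERIC PATCHING LIMIT (data only, no identities).  Level data over `S ⧸ 𝔟 n` (`𝔟 n ≤ 𝔪 ^ n`):
finite families of ring homs `R →+* Mat(S ⧸ 𝔟 n)` and of rectangular matrices, `σ n : S →+* R`,
`π n : R →+* T0`, finitely many elements `ν n c ∈ R`.  Output: the same data over `S`, approximating
the level data JOINTLY at every depth `k` (for some `n` with `𝔟 n ≤ 𝔪 ^ k`).  Every identity between
the level data which is stable under truncation then passes to the limit (see `Chain.lean`).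
-/
import Mathlib
import Fermat.Agent.TW.Patch.FiniteHom
import Fermat.Agent.TW.Patch.LiftMat

set_option autoImplicit false
set_option linter.style.haveILetI false
set_option linter.unusedSectionVars false

namespace Fermat.Agent.M59

open Fermat.Agent.TW

open IsLocalRing Filter

section rect

variable {S : Type*} [CommRing S] (I : Ideal S) [IsAdicComplete I S] {a b : ℕ}

/-- two rectangular matrices which agree modulo all `I ^ k` are equal. -/
theorem m59d_mat_ext {A B : Matrix (Fin a) (Fin b) S}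
    (h : ∀ k, A.map (Ideal.Quotient.mk (I ^ k)) = B.map (Ideal.Quotient.mk (I ^ k))) : A = B := by
  ext i j
  refine twdl_ext I fun k => ?_
  have := congrFun (congrFun (h k) i) j
  simpa [Matrix.map_apply] using this

/-- the limit of a compatible family of rectangular matrices. -/
theorem m59d_exists_mat_lim (y : ∀ k, Matrix (Fin a) (Fin b) (S ⧸ I ^ k))
    (hy : ∀ k, (y (k + 1)).map (twdl_fac I k) = y k) :
    ∃ A : Matrix (Fin a) (Fin b) S, ∀ k, A.map (Ideal.Quotient.mk (I ^ k)) = y k := by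
  have hy' : ∀ i j k, twdl_fac I k (y (k + 1) i j) = y k i j := by
    intro i j k
    have := congrFun (congrFun (hy k) i) j
    simpa [Matrix.map_apply] using this
  refine ⟨Matrix.of fun i j => twdl_elim I (fun k => y k i j) (hy' i j), fun k => ?_⟩
  ext i j
  simp only [Matrix.map_apply, Matrix.of_apply]
  exact twdl_elim_spec I _ _ k

end rect

section gen

variable {S : Type*} [CommRing S] [IsNoetherianRing S] [IsLocalRing S]
  [IsAdicComplete (maximalIdeal S) S]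
  {R : Type*} [CommRing R] [IsNoetherianRing R] [IsLocalRing R]
  [IsAdicComplete (maximalIdeal R) R]
  {T0 : Type*} [CommRing T0] (IT : Ideal T0) [IsAdicComplete IT T0]
  {I J K : Type*} [Finite I] [Finite J] [Finite K]
  (dI : I → ℕ) (rJ cJ : J → ℕ)

/-- truncated data at depth `k`. -/
abbrev m59d_GApprox (S R T0 : Type*) [CommRing S] [IsLocalRing S] [CommRing R] [IsLocalRing R]
    [CommRing T0] (IT : Ideal T0) {I J : Type*} (K : Type*) (dI : I → ℕ) (rJ cJ : J → ℕ)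
    (k : ℕ) : Type _ :=
  (∀ i : I, R →+* Matrix (Fin (dI i)) (Fin (dI i)) (S ⧸ maximalIdeal S ^ k)) ×
  (∀ j : J, Matrix (Fin (rJ j)) (Fin (cJ j)) (S ⧸ maximalIdeal S ^ k)) ×
  (S →+* R ⧸ maximalIdeal R ^ k) × (R →+* T0 ⧸ IT ^ k) × (K → R ⧸ maximalIdeal R ^ k)

theorem m59d_GApprox.finite (hS : ∀ k, Finite (S ⧸ maximalIdeal S ^ k))
    (hR : ∀ k, Finite (R ⧸ maximalIdeal R ^ k)) (hT0 : ∀ k, Finite (T0 ⧸ IT ^ k)) (k : ℕ) :
    Finite (m59d_GApprox S R T0 IT K dI rJ cJ k) := by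
  haveI := hS k
  haveI := hR k
  haveI := hT0 k
  haveI : ∀ i : I, Finite (Matrix (Fin (dI i)) (Fin (dI i)) (S ⧸ maximalIdeal S ^ k)) := by
    intro i; unfold Matrix; infer_instance
  haveI : ∀ j : J, Finite (Matrix (Fin (rJ j)) (Fin (cJ j)) (S ⧸ maximalIdeal S ^ k)) := by
    intro j; unfold Matrix; infer_instance
  haveI : ∀ i : I, Finite (R →+* Matrix (Fin (dI i)) (Fin (dI i)) (S ⧸ maximalIdeal S ^ k)) :=
    fun i => twd_finite_ringHom hR _
  haveI := twd_finite_ringHom hS (R ⧸ maximalIdeal R ^ k)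
  haveI := twd_finite_ringHom hR (T0 ⧸ IT ^ k)
  unfold m59d_GApprox
  infer_instance

/-- **GENERIC PATCHING LIMIT.** -/
theorem m59d_gen_limit (hS : ∀ k, Finite (S ⧸ maximalIdeal S ^ k))
    (hR : ∀ k, Finite (R ⧸ maximalIdeal R ^ k)) (hT0 : ∀ k, Finite (T0 ⧸ IT ^ k))
    (𝔟 : ℕ → Ideal S) (h𝔟 : ∀ n, 𝔟 n ≤ maximalIdeal S ^ n)
    (A : ∀ n (i : I), R →+* Matrix (Fin (dI i)) (Fin (dI i)) (S ⧸ 𝔟 n))
    (X : ∀ n (j : J), Matrix (Fin (rJ j)) (Fin (cJ j)) (S ⧸ 𝔟 n))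
    (σ : ℕ → S →+* R) (π : ℕ → R →+* T0) (ν : ℕ → K → R) :
    ∃ (A' : ∀ i : I, R →+* Matrix (Fin (dI i)) (Fin (dI i)) S)
      (X' : ∀ j : J, Matrix (Fin (rJ j)) (Fin (cJ j)) S)
      (σ' : S →+* R) (π' : R →+* T0) (ν' : K → R),
      ∀ k, ∃ n, ∃ h : 𝔟 n ≤ maximalIdeal S ^ k,
        (∀ i f, (A' i f).map (Ideal.Quotient.mk (maximalIdeal S ^ k)) =
          (A n i f).map (Ideal.Quotient.factor h)) ∧
        (∀ j, (X' j).map (Ideal.Quotient.mk (maximalIdeal S ^ k)) =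
          (X n j).map (Ideal.Quotient.factor h)) ∧
        (∀ s, Ideal.Quotient.mk (maximalIdeal R ^ k) (σ' s) =
          Ideal.Quotient.mk (maximalIdeal R ^ k) (σ n s)) ∧
        (∀ f, Ideal.Quotient.mk (IT ^ k) (π' f) = Ideal.Quotient.mk (IT ^ k) (π n f)) ∧
        (∀ c, Ideal.Quotient.mk (maximalIdeal R ^ k) (ν' c) =
          Ideal.Quotient.mk (maximalIdeal R ^ k) (ν n c)) := by
  classical
  have hle : ∀ {n k : ℕ}, k ≤ n → 𝔟 n ≤ maximalIdeal S ^ k := fun {n k} hkn =>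
    (h𝔟 n).trans (Ideal.pow_le_pow_right hkn)
  -- truncation
  let red : ∀ (n k : ℕ), 𝔟 n ≤ maximalIdeal S ^ k → m59d_GApprox S R T0 IT K dI rJ cJ k :=
    fun n k h =>
      (fun i => (Ideal.Quotient.factor h).mapMatrix.comp (A n i),
       fun j => (X n j).map (Ideal.Quotient.factor h),
       (Ideal.Quotient.mk _).comp (σ n),
       (Ideal.Quotient.mk _).comp (π n),
       fun c => Ideal.Quotient.mk _ (ν n c))
  -- stage 1: eventually constant truncations
  have key : ∀ k, ∃ D : m59d_GApprox S R T0 IT K dI rJ cJ k,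
      ∀ᶠ n in (hyperfilter ℕ : Filter ℕ), ∃ h : 𝔟 n ≤ maximalIdeal S ^ k, D = red n k h := by
    intro k
    haveI := m59d_GApprox.finite (K := K) IT dI rJ cJ hS hR hT0 k
    let x : ℕ → m59d_GApprox S R T0 IT K dI rJ cJ k := fun n =>
      if hkn : k ≤ n then red n k (hle hkn) else red k k (hle le_rfl)
    haveI : Nonempty (m59d_GApprox S R T0 IT K dI rJ cJ k) := ⟨x 0⟩
    refine ⟨twdl_ulim x, ?_⟩
    have h1 : ∀ᶠ n in (hyperfilter ℕ : Filter ℕ), k ≤ n :=
      Nat.hyperfilter_le_atTop (eventually_ge_atTop k)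
    filter_upwards [h1, twdl_ulim_spec x] with n hkn hn
    refine ⟨hle hkn, ?_⟩
    rw [← hn]
    simp only [x, dif_pos hkn]
  choose D hD using key
  have hD2 : ∀ k k' : ℕ, ∃ n, (∃ h : 𝔟 n ≤ maximalIdeal S ^ k, D k = red n k h) ∧
      ∃ h' : 𝔟 n ≤ maximalIdeal S ^ k', D k' = red n k' h' :=
    fun k k' => ((hD k).and (hD k')).exists
  -- compatibility
  have hfac : ∀ (n k : ℕ) (h' : 𝔟 n ≤ maximalIdeal S ^ (k + 1)) (h : 𝔟 n ≤ maximalIdeal S ^ k)
      {a b : ℕ} (Y : Matrix (Fin a) (Fin b) (S ⧸ 𝔟 n)),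
      (Y.map (Ideal.Quotient.factor h')).map (twdl_fac (maximalIdeal S) k) =
        Y.map (Ideal.Quotient.factor h) := by
    intro n k h' h a b Y
    ext i l
    simp only [Matrix.map_apply]
    exact Ideal.Quotient.factor_comp_apply _ _ _
  have cA : ∀ i k f, ((D (k + 1)).1 i f).map (twdl_fac (maximalIdeal S) k) = (D k).1 i f := by
    intro i k f
    obtain ⟨n, ⟨h', hk'⟩, ⟨h, hk⟩⟩ := hD2 (k + 1) k
    rw [hk', hk]
    exact hfac n k h' h _
  have cX : ∀ j k, ((D (k + 1)).2.1 j).map (twdl_fac (maximalIdeal S) k) = (D k).2.1 j := by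
    intro j k
    obtain ⟨n, ⟨h', hk'⟩, ⟨h, hk⟩⟩ := hD2 (k + 1) k
    rw [hk', hk]
    exact hfac n k h' h _
  have cσ : ∀ {m n : ℕ} (hmn : m ≤ n),
      (Ideal.Quotient.factorPow (maximalIdeal R) hmn).comp ((D n).2.2.1) = (D m).2.2.1 := by
    intro m n hmn
    obtain ⟨N, ⟨h', hk'⟩, ⟨h, hk⟩⟩ := hD2 n m
    rw [hk', hk]
    show (Ideal.Quotient.factorPow (maximalIdeal R) hmn).comp
      ((Ideal.Quotient.mk _).comp (σ N)) = (Ideal.Quotient.mk _).comp (σ N)
    rw [← RingHom.comp_assoc, Ideal.Quotient.factor_comp_mk]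
  have cπ : ∀ {m n : ℕ} (hmn : m ≤ n),
      (Ideal.Quotient.factorPow IT hmn).comp ((D n).2.2.2.1) = (D m).2.2.2.1 := by
    intro m n hmn
    obtain ⟨N, ⟨h', hk'⟩, ⟨h, hk⟩⟩ := hD2 n m
    rw [hk', hk]
    show (Ideal.Quotient.factorPow IT hmn).comp
      ((Ideal.Quotient.mk _).comp (π N)) = (Ideal.Quotient.mk _).comp (π N)
    rw [← RingHom.comp_assoc, Ideal.Quotient.factor_comp_mk]
  have cν : ∀ c k, twdl_fac (maximalIdeal R) k ((D (k + 1)).2.2.2.2 c) = (D k).2.2.2.2 c := by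
    intro c k
    obtain ⟨N, ⟨h', hk'⟩, ⟨h, hk⟩⟩ := hD2 (k + 1) k
    rw [hk', hk]
    show twdl_fac (maximalIdeal R) k (Ideal.Quotient.mk _ (ν N c)) = Ideal.Quotient.mk _ (ν N c)
    exact Ideal.Quotient.factor_mk _ _
  -- the lifts
  choose A' hA' using fun i =>
    twdl_exists_liftMat (maximalIdeal S) (fun k => (D k).1 i) (cA i)
  choose X' hX' using fun j =>
    m59d_exists_mat_lim (maximalIdeal S) (fun k => (D k).2.1 j) (cX j)
  have hσ' : ∀ k, (Ideal.Quotient.mk (maximalIdeal R ^ k)).comp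
      (IsAdicComplete.liftRingHom (maximalIdeal R) (fun k => (D k).2.2.1) cσ) = (D k).2.2.1 :=
    fun k => IsAdicComplete.mk_comp_liftRingHom (maximalIdeal R) (fun k => (D k).2.2.1) cσ k
  have hπ' : ∀ k, (Ideal.Quotient.mk (IT ^ k)).comp
      (IsAdicComplete.liftRingHom IT (fun k => (D k).2.2.2.1) cπ) = (D k).2.2.2.1 :=
    fun k => IsAdicComplete.mk_comp_liftRingHom IT (fun k => (D k).2.2.2.1) cπ k
  refine ⟨A', X', IsAdicComplete.liftRingHom (maximalIdeal R) (fun k => (D k).2.2.1) cσ,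
    IsAdicComplete.liftRingHom IT (fun k => (D k).2.2.2.1) cπ,
    fun c => twdl_elim (maximalIdeal R) (fun k => (D k).2.2.2.2 c) (cν c), ?_⟩
  intro k
  obtain ⟨n, ⟨h, hk⟩, -⟩ := hD2 k k
  refine ⟨n, h, ?_, ?_, ?_, ?_, ?_⟩
  · intro i f
    rw [hA' i k f, hk]
    rfl
  · intro j
    rw [hX' j k, hk]
  · intro s
    have h1 := RingHom.congr_fun (hσ' k) s
    rw [RingHom.comp_apply] at h1
    rw [h1, hk]
    rfl
  · intro f
    have h1 := RingHom.congr_fun (hπ' k) f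
    rw [RingHom.comp_apply] at h1
    rw [h1, hk]
    rfl
  · intro c
    rw [twdl_elim_spec (maximalIdeal R) _ (cν c) k, hk]

end gen

end Fermat.Agent.M59
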