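/-
S59 / block [D'] (helper25).  Prefix `m59d_`.

`m59d_chain_exists_limit`: PATCHING for chain data (twin of `twd_exists_limit`): level data over
`S ⧸ 𝔟 n`, `𝔟 n ≤ 𝔪 ^ n`, give a patched chain datum over `S`.  Route: `m59d_gen_limit` (joint
approximation of all data) + verification of every identity modulo `𝔪 ^ k` for all `k`.
-/
import Mathlib
import Fermat.Agent.M59.D.ChainDefs
import Fermat.Agent.M59.D.ChainIdx
import Fermat.Agent.M59.D.GenLimit
import Fermat.Agent.TW.Patch.LimitAux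
import Fermat.Agent.TW.Patch.LimitVerify

set_option autoImplicit false
set_option linter.style.haveILetI false
set_option linter.unusedSectionVars false
set_option linter.unusedVariables false

namespace Fermat.Agent.M59

open Fermat.Agent.TW

open IsLocalRing

universe uO uS uR uT

section aux

variable {S : Type*} [CommRing S] (I : Ideal S)

/-- truncation of an approximation to a smaller depth. -/
theorem m59d_trunc {a b : ℕ} {𝔟 : Ideal S} {K kk : ℕ} (hK : 𝔟 ≤ I ^ K) (hkk : kk ≤ K)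
    (Y' : Matrix (Fin a) (Fin b) S) (Y : Matrix (Fin a) (Fin b) (S ⧸ 𝔟))
    (h : Y'.map (Ideal.Quotient.mk (I ^ K)) = Y.map (Ideal.Quotient.factor hK)) :
    Y'.map (Ideal.Quotient.mk (I ^ kk)) =
      Y.map (Ideal.Quotient.factor (hK.trans (Ideal.pow_le_pow_right hkk))) := by
  have h1 := congrArg
    (fun M => M.map (Ideal.Quotient.factor (Ideal.pow_le_pow_right (I := I) hkk))) h
  simp only [Matrix.map_map] at h1
  ext i l
  have h2 := congrFun (congrFun h1 i) l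
  simp only [Matrix.map_apply, Function.comp_apply, Ideal.Quotient.factor_mk] at h2 ⊢
  rw [h2]
  exact Ideal.Quotient.factor_comp_apply _ _ _

variable {R : Type*} [CommRing R] [IsLocalRing R]

/-- continuity of a ring hom into matrices over `S`, `S ⧸ I ^ k` finite. -/
theorem m59d_cont_mat {a : ℕ} (φ : R →+* Matrix (Fin a) (Fin a) S) (kk : ℕ)
    [Finite (S ⧸ I ^ kk)] :
    ∃ N, ∀ x x' : R, x - x' ∈ maximalIdeal R ^ N →
      (φ x).map (Ideal.Quotient.mk (I ^ kk)) = (φ x').map (Ideal.Quotient.mk (I ^ kk)) := by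
  haveI : Finite (Matrix (Fin a) (Fin a) (S ⧸ I ^ kk)) := by
    unfold Matrix; infer_instance
  refine ⟨Nat.card (Matrix (Fin a) (Fin a) (S ⧸ I ^ kk)), fun x x' hxx' => ?_⟩
  have := twd_maximalIdeal_pow_card_le_ker ((Ideal.Quotient.mk (I ^ kk)).mapMatrix.comp φ) hxx'
  rw [RingHom.mem_ker, map_sub, sub_eq_zero] at this
  exact this

/-- continuity of a ring hom into `T0`, `T0 ⧸ IT ^ k` finite. -/
theorem m59d_cont_ring {T0 : Type*} [CommRing T0] (IT : Ideal T0) (φ : R →+* T0) (kk : ℕ)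
    [Finite (T0 ⧸ IT ^ kk)] :
    ∃ N, ∀ x x' : R, x - x' ∈ maximalIdeal R ^ N →
      Ideal.Quotient.mk (IT ^ kk) (φ x) = Ideal.Quotient.mk (IT ^ kk) (φ x') := by
  refine ⟨Nat.card (T0 ⧸ IT ^ kk), fun x x' hxx' => ?_⟩
  have := twd_maximalIdeal_pow_card_le_ker ((Ideal.Quotient.mk (IT ^ kk)).comp φ) hxx'
  rw [RingHom.mem_ker, map_sub, sub_eq_zero] at this
  exact this

end aux

/-- ideals of a noetherian local ring are closed: `x ∈ 𝔠 + 𝔪 ^ N` for all `N` gives `x ∈ 𝔠`. -/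
theorem m59d_mem_of_forall_mem_sup_pow {R : Type*} [CommRing R] [IsNoetherianRing R]
    [IsLocalRing R] (𝔠 : Ideal R) (x : R) (h : ∀ N, x ∈ 𝔠 ⊔ maximalIdeal R ^ N) : x ∈ 𝔠 := by
  have hbot := Ideal.iInf_pow_smul_eq_bot_of_isLocalRing (R := R) (M := R ⧸ 𝔠) (maximalIdeal R)
    (Ideal.IsPrime.ne_top inferInstance)
  have hmem : Ideal.Quotient.mk 𝔠 x ∈
      (⨅ i : ℕ, maximalIdeal R ^ i • (⊤ : Submodule R (R ⧸ 𝔠)) : Submodule R (R ⧸ 𝔠)) := by
    rw [Submodule.mem_iInf]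
    intro N
    obtain ⟨c, hc, y, hy, rfl⟩ := Submodule.mem_sup.1 (h N)
    rw [map_add, Ideal.Quotient.eq_zero_iff_mem.2 hc, zero_add]
    have h1 : Ideal.Quotient.mk 𝔠 y = y • (1 : R ⧸ 𝔠) := by
      rw [Algebra.smul_def, mul_one]
      rfl
    rw [h1]
    exact Submodule.smul_mem_smul hy Submodule.mem_top
  rw [hbot, Submodule.mem_bot] at hmem
  exact Ideal.Quotient.eq_zero_iff_mem.1 hmem

variable {O : Type uO} [CommRing O] {lam : O}
  {S : Type uS} [CommRing S] [Algebra O S] [IsNoetherianRing S] [IsLocalRing S]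
  [IsAdicComplete (maximalIdeal S) S]
  {R : Type uR} [CommRing R] [Algebra O R] [IsNoetherianRing R] [IsLocalRing R]
  [IsAdicComplete (maximalIdeal R) R]
  {T0 : Type uT} [CommRing T0] [Algebra O T0]
  [IsAdicComplete (Ideal.span {algebraMap O T0 lam}) T0]
  {m : ℕ} {d : Fin (m + 1) → ℕ} {e : Fin m → ℕ} {EE : ℕ}
  {𝔞 : Ideal S} {j : T0 →+* Matrix (Fin (d (Fin.last m))) (Fin (d (Fin.last m))) (S ⧸ 𝔞)}
  {θ : S →+* T0} {ι κ K : Type*} [Finite K] [Finite ι] {u : ι → R} {𝔠 : ι → Ideal R} {ν : κ → R}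
  {β : κ → T0} {γ : K → T0} {r s : Fin m → R}

/-- the ring homs of a chain level datum, as one family. -/
def m59d_packA {𝔟 : Ideal S} {h𝔟𝔞 : 𝔟 ≤ 𝔞}
    (L : m59d_ChainLevel O S R T0 d e EE 𝔞 𝔟 h𝔟𝔞 j θ u 𝔠 ν β γ r s) :
    ∀ i : m59d_HIdx m, R →+* Matrix (Fin (m59d_dH d e i)) (Fin (m59d_dH d e i)) (S ⧸ 𝔟)
  | .lev k => L.α k
  | .new k => L.αN k

/-- the matrices of a chain level datum, as one family. -/
def m59d_packX {𝔟 : Ideal S} {h𝔟𝔞 : 𝔟 ≤ 𝔞}
    (L : m59d_ChainLevel O S R T0 d e EE 𝔞 𝔟 h𝔟𝔞 j θ u 𝔠 ν β γ r s) :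
    ∀ i : m59d_MIdx m, Matrix (Fin (m59d_rM d e i)) (Fin (m59d_cM d e i)) (S ⧸ 𝔟)
  | .p k => L.p k
  | .q k => L.q k
  | .j k => L.j' k
  | .rho k => L.ρ' k
  | .Z k => L.Z k
  | .X k => L.X k

/-- **PATCHING for chain data.** -/
theorem m59d_chain_exists_limit
    (hS : ∀ k, Finite (S ⧸ maximalIdeal S ^ k)) (hR : ∀ k, Finite (R ⧸ maximalIdeal R ^ k))
    (hT0 : ∀ k, Finite (T0 ⧸ (Ideal.span {algebraMap O T0 lam}) ^ k))
    (hlamS : algebraMap O S lam ∈ maximalIdeal S)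
    (hθalg : ∀ a : O, θ (algebraMap O S a) = algebraMap O T0 a)
    (𝔟 : ℕ → Ideal S) (h𝔟𝔞 : ∀ n, 𝔟 n ≤ 𝔞) (h𝔟 : ∀ n, 𝔟 n ≤ maximalIdeal S ^ n)
    (Lv : ∀ n, m59d_ChainLevel O S R T0 d e EE 𝔞 (𝔟 n) (h𝔟𝔞 n) j θ u 𝔠 ν β γ r s) :
    Nonempty (m59d_ChainLimit O S R T0 d e EE 𝔞 j θ u 𝔠 ν β γ r s) := by
  classical
  obtain ⟨A', X', σ', π', ν', happ⟩ := m59d_gen_limit (Ideal.span {algebraMap O T0 lam})
    (m59d_dH d e) (m59d_rM d e) (m59d_cM d e) hS hR hT0 𝔟 h𝔟
    (fun n => m59d_packA (Lv n)) (fun n => m59d_packX (Lv n))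
    (fun n => (Lv n).σ) (fun n => (Lv n).π) (fun n => Sum.elim (Lv n).νn (Lv n).un)
  -- approximation with two depths
  have happ2 : ∀ kk N : ℕ, ∃ n, ∃ h : 𝔟 n ≤ maximalIdeal S ^ kk,
      (∀ i f, (A' i f).map (Ideal.Quotient.mk (maximalIdeal S ^ kk)) =
        (m59d_packA (Lv n) i f).map (Ideal.Quotient.factor h)) ∧
      (∀ i, (X' i).map (Ideal.Quotient.mk (maximalIdeal S ^ kk)) =
        (m59d_packX (Lv n) i).map (Ideal.Quotient.factor h)) ∧
      (∀ t, σ' t - (Lv n).σ t ∈ maximalIdeal R ^ N) ∧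
      (∀ f, Ideal.Quotient.mk ((Ideal.span {algebraMap O T0 lam}) ^ kk) (π' f) =
        Ideal.Quotient.mk ((Ideal.span {algebraMap O T0 lam}) ^ kk) ((Lv n).π f)) ∧
      (∀ c, ν' c - Sum.elim (Lv n).νn (Lv n).un c ∈ maximalIdeal R ^ N) := by
    intro kk N
    obtain ⟨n, h, hA, hX, hσ, hπ, hν⟩ := happ (max kk N)
    have hkk : kk ≤ max kk N := le_max_left _ _
    have hN : N ≤ max kk N := le_max_right _ _
    refine ⟨n, h.trans (Ideal.pow_le_pow_right hkk), ?_, ?_, ?_, ?_, ?_⟩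
    · intro i f
      exact m59d_trunc (maximalIdeal S) h hkk _ _ (hA i f)
    · intro i
      exact m59d_trunc (maximalIdeal S) h hkk _ _ (hX i)
    · intro t
      exact Ideal.pow_le_pow_right hN (Ideal.Quotient.eq.1 (hσ t))
    · intro f
      have h1 := Ideal.Quotient.eq.1 (hπ f)
      exact Ideal.Quotient.eq.2 (Ideal.pow_le_pow_right hkk h1)
    · intro c
      exact Ideal.pow_le_pow_right hN (Ideal.Quotient.eq.1 (hν c))
  -- `j` is `O`-linear
  have hjalg : ∀ a : O, j (algebraMap O T0 a) =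
      Matrix.scalar (Fin (d (Fin.last m))) (Ideal.Quotient.mk 𝔞 (algebraMap O S a)) := by
    intro a
    rw [← hθalg a, ← (Lv 0).π_σ, ← (Lv 0).α_mod, (Lv 0).α_σ, twd_scalar_map,
      Ideal.Quotient.factor_mk]
  -- the identities
  have e_σalg : ∀ a : O, σ' (algebraMap O S a) = algebraMap O R a := by
    intro a
    apply twd_eq_of_forall_mk_eq (maximalIdeal R)
    intro k
    obtain ⟨n, h, -, -, hσ, -, -⟩ := happ2 0 k
    rw [← (Lv n).σ_algebraMap a]
    exact Ideal.Quotient.eq.2 (hσ _)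
  have e_Aσ : ∀ (i : m59d_HIdx m) (t : S),
      (∀ n, m59d_packA (Lv n) i ((Lv n).σ t) =
        Matrix.scalar (Fin (m59d_dH d e i)) (Ideal.Quotient.mk (𝔟 n) t)) →
      A' i (σ' t) = Matrix.scalar (Fin (m59d_dH d e i)) t := by
    intro i t hlev
    apply twd_matrix_eq_of_forall_map_eq (maximalIdeal S)
    intro kk
    haveI := hS kk
    obtain ⟨N, hN⟩ := m59d_cont_mat (maximalIdeal S) (A' i) kk
    obtain ⟨n, h, hA, -, hσ, -, -⟩ := happ2 kk N
    rw [hN _ _ (hσ t), hA i, hlev n, twd_scalar_map, twd_scalar_map, Ideal.Quotient.factor_mk]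
  have e_pq : ∀ k, X' (.p k) * X' (.q k) = 1 := by
    intro k
    apply m59d_mat_ext (maximalIdeal S)
    intro kk
    obtain ⟨n, h, -, hX, -, -, -⟩ := happ2 kk 0
    rw [Matrix.map_mul, hX (.p k), hX (.q k), ← Matrix.map_mul]
    show ((Lv n).p k * (Lv n).q k).map _ = _
    rw [(Lv n).p_q, Matrix.map_one _ (map_zero _) (map_one _),
      Matrix.map_one _ (map_zero _) (map_one _)]
  have e_pα : ∀ k f, X' (.p k) * A' (.lev k.succ) f = A' (.new k) f * X' (.p k) := by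
    intro k f
    apply m59d_mat_ext (maximalIdeal S)
    intro kk
    obtain ⟨n, h, hA, hX, -, -, -⟩ := happ2 kk 0
    rw [Matrix.map_mul, Matrix.map_mul, hX (.p k), hA (.lev k.succ), hA (.new k),
      ← Matrix.map_mul, ← Matrix.map_mul]
    show ((Lv n).p k * (Lv n).α k.succ f).map _ = ((Lv n).αN k f * (Lv n).p k).map _
    rw [(Lv n).p_α]
  have e_jρ : ∀ k, X' (.j k) * X' (.rho k) = 1 := by
    intro k
    apply m59d_mat_ext (maximalIdeal S)
    intro kk
    obtain ⟨n, h, -, hX, -, -, -⟩ := happ2 kk 0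
    rw [Matrix.map_mul, hX (.j k), hX (.rho k), ← Matrix.map_mul]
    show ((Lv n).j' k * (Lv n).ρ' k).map _ = _
    rw [(Lv n).j'_ρ', Matrix.map_one _ (map_zero _) (map_one _),
      Matrix.map_one _ (map_zero _) (map_one _)]
  have e_jα : ∀ k f, X' (.j k) * A' (.lev k.succ) f = A' (.lev k.castSucc) f * X' (.j k) := by
    intro k f
    apply m59d_mat_ext (maximalIdeal S)
    intro kk
    obtain ⟨n, h, hA, hX, -, -, -⟩ := happ2 kk 0
    rw [Matrix.map_mul, Matrix.map_mul, hX (.j k), hA (.lev k.succ), hA (.lev k.castSucc),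
      ← Matrix.map_mul, ← Matrix.map_mul]
    show ((Lv n).j' k * (Lv n).α k.succ f).map _ = ((Lv n).α k.castSucc f * (Lv n).j' k).map _
    rw [(Lv n).j'_α]
  have e_jZ : ∀ k, X' (.j k) * (1 - X' (.q k) * X' (.p k)) = X' (.X k) * X' (.Z k) := by
    intro k
    apply m59d_mat_ext (maximalIdeal S)
    intro kk
    obtain ⟨n, h, hA, hX, -, -, -⟩ := happ2 kk 0
    rw [Matrix.map_mul, Matrix.map_mul, Matrix.map_sub _ (map_sub _), Matrix.map_mul,
      Matrix.map_one _ (map_zero _) (map_one _),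
      hX (.j k), hX (.q k), hX (.p k), hX (.Z k), hX (.X k)]
    have h1 := congrArg (fun M => M.map (Ideal.Quotient.factor h)) ((Lv n).j'_Z k)
    simp only [Matrix.map_mul, Matrix.map_sub _ (map_sub _),
      Matrix.map_one _ (map_zero _) (map_one _)] at h1
    exact h1
  have e_Xc : ∀ k f, X' (.X k) * A' (.lev k.castSucc) f = A' (.lev k.castSucc) f * X' (.X k) := by
    intro k f
    apply m59d_mat_ext (maximalIdeal S)
    intro kk
    obtain ⟨n, h, hA, hX, -, -, -⟩ := happ2 kk 0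
    rw [Matrix.map_mul, Matrix.map_mul, hX (.X k), hA (.lev k.castSucc),
      ← Matrix.map_mul, ← Matrix.map_mul]
    show ((Lv n).X k * (Lv n).α k.castSucc f).map _ = ((Lv n).α k.castSucc f * (Lv n).X k).map _
    rw [(Lv n).X_comm]
  have e_Xn : ∀ k, (X' (.X k) - A' (.lev k.castSucc) (s k)) ^ EE = 0 := by
    intro k
    apply m59d_mat_ext (maximalIdeal S)
    intro kk
    obtain ⟨n, h, hA, hX, -, -, -⟩ := happ2 kk 0
    have h1 : (X' (.X k) - A' (.lev k.castSucc) (s k)).map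
        (Ideal.Quotient.mk (maximalIdeal S ^ kk)) =
        ((Lv n).X k - (Lv n).α k.castSucc (s k)).map (Ideal.Quotient.factor h) := by
      rw [Matrix.map_sub _ (map_sub _), Matrix.map_sub _ (map_sub _), hX (.X k),
        hA (.lev k.castSucc)]
      rfl
    have h2 : ∀ (M : Matrix (Fin (d k.castSucc)) (Fin (d k.castSucc)) S),
        (M ^ EE).map (Ideal.Quotient.mk (maximalIdeal S ^ kk)) =
          (M.map (Ideal.Quotient.mk (maximalIdeal S ^ kk))) ^ EE := by
      intro M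
      rw [← RingHom.mapMatrix_apply, ← RingHom.mapMatrix_apply, map_pow]
    have h3 : ∀ (M : Matrix (Fin (d k.castSucc)) (Fin (d k.castSucc)) (S ⧸ 𝔟 n)),
        (M ^ EE).map (Ideal.Quotient.factor h) = (M.map (Ideal.Quotient.factor h)) ^ EE := by
      intro M
      rw [← RingHom.mapMatrix_apply, ← RingHom.mapMatrix_apply, map_pow]
    rw [h2, h1, ← h3, (Lv n).X_nil, Matrix.map_zero _ (map_zero _),
      Matrix.map_zero _ (map_zero _)]
  have e_Nr : ∀ k, A' (.new k) (r k) = 0 := by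
    intro k
    apply twd_matrix_eq_of_forall_map_eq (maximalIdeal S)
    intro kk
    obtain ⟨n, h, hA, -, -, -, -⟩ := happ2 kk 0
    rw [hA (.new k)]
    show ((Lv n).αN k (r k)).map _ = _
    rw [(Lv n).αN_r, Matrix.map_zero _ (map_zero _), Matrix.map_zero _ (map_zero _)]
  have e_un : ∀ i, A' (.lev 0) (ν' (Sum.inr i)) = 0 := by
    intro i
    apply twd_matrix_eq_of_forall_map_eq (maximalIdeal S)
    intro kk
    haveI := hS kk
    obtain ⟨N, hN⟩ := m59d_cont_mat (maximalIdeal S) (A' (.lev 0)) kk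
    obtain ⟨n, h, hA, -, -, -, hν⟩ := happ2 kk N
    rw [hN _ _ (hν (Sum.inr i)), hA (.lev 0)]
    show ((Lv n).α 0 ((Lv n).un i)).map _ = _
    rw [(Lv n).α_un, Matrix.map_zero _ (map_zero _), Matrix.map_zero _ (map_zero _)]
  have e_unu : ∀ i, ν' (Sum.inr i) - u i ∈ 𝔠 i := by
    intro i
    apply m59d_mem_of_forall_mem_sup_pow
    intro N
    obtain ⟨n, h, -, -, -, -, hν⟩ := happ2 0 N
    have h1 : ν' (Sum.inr i) - u i =
        ((Lv n).un i - u i) + (ν' (Sum.inr i) - (Lv n).un i) := by ring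
    rw [h1]
    exact Submodule.add_mem_sup ((Lv n).un_u i) (hν (Sum.inr i))
  have e_πν : ∀ c, π' (ν c) = β c := by
    intro c
    apply twd_eq_of_forall_mk_eq (Ideal.span {algebraMap O T0 lam})
    intro kk
    obtain ⟨n, h, -, -, -, hπ, -⟩ := happ2 kk 0
    rw [hπ, (Lv n).π_ν]
  have e_πνn : ∀ c, π' (ν' (Sum.inl c)) = γ c := by
    intro c
    apply twd_eq_of_forall_mk_eq (Ideal.span {algebraMap O T0 lam})
    intro kk
    haveI := hT0 kk
    obtain ⟨N, hN⟩ := m59d_cont_ring (Ideal.span {algebraMap O T0 lam}) π' kk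
    obtain ⟨n, h, -, -, -, hπ, hν⟩ := happ2 kk N
    rw [hN _ _ (hν (Sum.inl c)), hπ, Sum.elim_inl, (Lv n).π_νn]
  have e_πσ : ∀ t, π' (σ' t) = θ t := by
    intro t
    apply twd_eq_of_forall_mk_eq (Ideal.span {algebraMap O T0 lam})
    intro kk
    haveI := hT0 kk
    obtain ⟨N, hN⟩ := m59d_cont_ring (Ideal.span {algebraMap O T0 lam}) π' kk
    obtain ⟨n, h, -, -, hσ, hπ, -⟩ := happ2 kk N
    rw [hN _ _ (hσ t), hπ, (Lv n).π_σ]
  have e_mod : ∀ f : R, (A' (.lev (Fin.last m)) f).map (Ideal.Quotient.mk 𝔞) = j (π' f) := by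
    intro f
    ext i l
    rw [Matrix.map_apply]
    apply twd_quot_eq_of_forall
    intro k
    obtain ⟨n, h, hA, -, -, hπ, -⟩ := happ2 k 0
    obtain ⟨w, hw⟩ := Ideal.Quotient.mk_surjective (((Lv n).α (Fin.last m) f) i l)
    have ha : (A' (.lev (Fin.last m)) f) i l - w ∈ maximalIdeal S ^ k := by
      rw [← Ideal.Quotient.eq]
      have h2 := congrFun (congrFun (hA (.lev (Fin.last m)) f) i) l
      rw [Matrix.map_apply] at h2
      rw [h2]
      show (((Lv n).α (Fin.last m) f).map (Ideal.Quotient.factor h)) i l = _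
      rw [Matrix.map_apply, ← hw, Ideal.Quotient.factor_mk]
    have hb : Ideal.Quotient.mk 𝔞 w = (j ((Lv n).π f)) i l := by
      rw [← (Lv n).α_mod f, Matrix.map_apply, ← hw, Ideal.Quotient.factor_mk]
    have hc : π' f - (Lv n).π f ∈ (Ideal.span {algebraMap O T0 lam}) ^ k :=
      Ideal.Quotient.eq.1 (hπ f)
    rw [Ideal.span_singleton_pow, Ideal.mem_span_singleton'] at hc
    obtain ⟨u', hu'⟩ := hc
    obtain ⟨v, hv⟩ := Ideal.Quotient.mk_surjective ((j u') i l)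
    have hd : (j (π' f)) i l - (j ((Lv n).π f)) i l =
        Ideal.Quotient.mk 𝔞 (algebraMap O S lam ^ k * v) := by
      have h4 : j (π' f) - j ((Lv n).π f) = j (u' * algebraMap O T0 lam ^ k) := by
        rw [hu', map_sub]
      have h5 : j (u' * algebraMap O T0 lam ^ k) =
          Matrix.scalar (Fin (d (Fin.last m))) (Ideal.Quotient.mk 𝔞 (algebraMap O S lam ^ k)) *
            j u' := by
        rw [mul_comm, map_mul, map_pow, hjalg lam, ← map_pow, ← map_pow]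
      have h6 := congrFun (congrFun h4 i) l
      rw [Matrix.sub_apply] at h6
      rw [h6, h5, Matrix.scalar_apply, Matrix.diagonal_mul, ← hv, ← map_mul]
    refine ⟨(A' (.lev (Fin.last m)) f) i l - w - algebraMap O S lam ^ k * v,
      Ideal.sub_mem _ ha (Ideal.mul_mem_right _ _ (Ideal.pow_mem_pow hlamS k)), ?_⟩
    rw [map_sub, map_sub, ← hd, hb]
    ring
  exact ⟨{
    σ := σ'
    σ_algebraMap := e_σalg
    α := fun k => A' (.lev k)
    α_σ := fun k t => e_Aσ (.lev k) t (fun n => (Lv n).α_σ k t)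
    αN := fun k => A' (.new k)
    αN_σ := fun k t => e_Aσ (.new k) t (fun n => (Lv n).αN_σ k t)
    p := fun k => X' (.p k)
    q := fun k => X' (.q k)
    j' := fun k => X' (.j k)
    ρ' := fun k => X' (.rho k)
    Z := fun k => X' (.Z k)
    X := fun k => X' (.X k)
    p_q := e_pq
    p_α := e_pα
    j'_ρ' := e_jρ
    j'_α := e_jα
    X_comm := e_Xc
    X_nil := e_Xn
    j'_Z := e_jZ
    αN_r := e_Nr
    un := fun i => ν' (Sum.inr i)
    α_un := e_un
    un_u := e_unu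
    π := π'
    α_mod := e_mod
    π_ν := e_πν
    νn := fun c => ν' (Sum.inl c)
    π_νn := e_πνn
    π_σ := e_πσ }⟩

end Fermat.Agent.M59
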