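/-
S59 / block [D'] (helper25).  Prefix `m59d_`.

The END of the walk: from `ker α ≤ ker (x₂ ∘ π)` at the top level of the chain to
`j τ = 0 → x₂ τ = 0` on `T₀' = im π`, i.e. the eigensystem of `W` factors through the Hecke ring
acting on `M_∅(B')`.
-/
import Mathlib
import Fermat.Agent.M59.D.Walk

set_option autoImplicit false

namespace Fermat.Agent.M59

open Fermat.Agent.TW

open Matrix

variable {S : Type*} [CommRing S] {R : Type*} [CommRing R]
  {T0 : Type*} [CommRing T0] {E : Type*} [CommRing E] [IsDomain E] {d : ℕ}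

/-- **END**: elements of `R` acting as `0` on `M_∅ = M_∞ / 𝔞` are killed by `x_W = x₂ ∘ π`. -/
theorem m59d_end (σ : S →+* R) (α : R →+* Matrix (Fin d) (Fin d) S)
    (hασ : ∀ t, α (σ t) = Matrix.scalar (Fin d) t) (𝔞 : Ideal S)
    (j : T0 →+* Matrix (Fin d) (Fin d) (S ⧸ 𝔞)) (π : R →+* T0) (x₂ : T0 →+* E)
    (hmod : ∀ f : R, (α f).map (Ideal.Quotient.mk 𝔞) = j (π f))
    (hπσ : ∀ t ∈ 𝔞, x₂ (π (σ t)) = 0)
    (hker : RingHom.ker α ≤ RingHom.ker (x₂.comp π)) :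
    ∀ f : R, j (π f) = 0 → x₂ (π f) = 0 := by
  intro f hf
  haveI hprime : (RingHom.ker (x₂.comp π)).IsPrime := RingHom.ker_isPrime _
  have hent : ∀ i k, α f i k ∈ 𝔞 := by
    intro i k
    have h1 := congrFun (congrFun (hmod f) i) k
    rw [hf, Matrix.map_apply, Matrix.zero_apply] at h1
    exact Ideal.Quotient.eq_zero_iff_mem.1 h1
  have h2 := twd_pow_mem_of_entries_mem α σ hασ f hent
  have h3 : RingHom.ker α ⊔ 𝔞.map σ ≤ RingHom.ker (x₂.comp π) := by
    refine sup_le hker ?_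
    rw [Ideal.map_le_iff_le_comap]
    intro t ht
    rw [Ideal.mem_comap, RingHom.mem_ker, RingHom.comp_apply]
    exact hπσ t ht
  have h4 := hprime.mem_of_pow_mem d (h3 h2)
  rwa [RingHom.mem_ker, RingHom.comp_apply] at h4

/-- with `π` onto: the character `x₂` factors through the image of `T₀'` in `End M_∅`. -/
theorem m59d_end_surj (σ : S →+* R) (α : R →+* Matrix (Fin d) (Fin d) S)
    (hασ : ∀ t, α (σ t) = Matrix.scalar (Fin d) t) (𝔞 : Ideal S)
    (j : T0 →+* Matrix (Fin d) (Fin d) (S ⧸ 𝔞)) (π : R →+* T0) (x₂ : T0 →+* E)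
    (hπ : Function.Surjective π)
    (hmod : ∀ f : R, (α f).map (Ideal.Quotient.mk 𝔞) = j (π f))
    (hπσ : ∀ t ∈ 𝔞, x₂ (π (σ t)) = 0)
    (hker : RingHom.ker α ≤ RingHom.ker (x₂.comp π)) :
    RingHom.ker j ≤ RingHom.ker x₂ := by
  intro τ hτ
  obtain ⟨f, rfl⟩ := hπ τ
  exact (RingHom.mem_ker).2 (m59d_end σ α hασ 𝔞 j π x₂ hmod hπσ hker f ((RingHom.mem_ker).1 hτ))

end Fermat.Agent.M59
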