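/-
S59 / block [D'] (helper25).  Prefix `m59d_`.

`m59d_chain_main`: THE ENGINE ALGEBRA.  From a patched chain datum, the dimension bound (B1), the
base hypothesis `hbase` (`m59d_hbase_of_irr`: it follows from the irreducible unramified base ring
when `𝔠 = ⊥`), and the points `y_0, …, y_m = x_W` with (LOC) ⟹ `ker j ≤ ker x₂`, i.e. the
eigensystem of `W` (second projection of `T₀' ⊆ T_∅ × 𝒪`) factors through the Hecke ring acting on
`M_∅(B')`.
-/
import Mathlib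
import Fermat.Agent.M59.D.ChainDefs
import Fermat.Agent.M59.D.ChainIdx
import Fermat.Agent.M59.D.End
import Fermat.Agent.TW.Patch.FullSupport
import Fermat.Agent.TW.Patch.DimIrred

set_option autoImplicit false
set_option linter.style.haveILetI false
set_option linter.unusedSectionVars false

namespace Fermat.Agent.M59

open Fermat.Agent.TW

universe uO uS uR uT

variable {O : Type uO} [CommRing O] (lam : O)
  {S : Type uS} [CommRing S] [Algebra O S] [IsDomain S] [IsNoetherianRing S] [IsLocalRing S]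
  {R : Type uR} [CommRing R] [Algebra O R] [IsNoetherianRing R] [IsLocalRing R]
  {T0 : Type uT} [CommRing T0] [Algebra O T0]
  {E : Type*} [CommRing E] [IsDomain E]
  {m : ℕ} {d : Fin (m + 1) → ℕ} {e : Fin m → ℕ} {EE : ℕ}
  {𝔞 : Ideal S} {j : T0 →+* Matrix (Fin (d (Fin.last m))) (Fin (d (Fin.last m))) (S ⧸ 𝔞)}
  {θ : S →+* T0} {ι κ K : Type*} {u : ι → R} {𝔠 : ι → Ideal R} {ν : κ → R} {β : κ → T0}
  {γ : K → T0} {r s : Fin m → R}

/-- the base of the walk: a prime minimal over the annihilator of the patched module of the base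
level has coheight `≥ dim S` and contains the `un i ≡ u i mod 𝔠 i`; `hbase` puts it inside
`ker y0`. -/
theorem m59d_base (hd0 : 0 < d 0) (L : m59d_ChainLimit O S R T0 d e EE 𝔞 j θ u 𝔠 ν β γ r s)
    (hbase : ∀ w : ι → R, (∀ i, w i - u i ∈ 𝔠 i) → ∀ P : Ideal R, P.IsPrime → (∀ i, w i ∈ P) →
      ringKrullDim S ≤ ringKrullDim (R ⧸ P) → ∀ y0 : R →+* E, (∀ i, y0 (u i) = 0) →
        P ≤ RingHom.ker y0)
    (y0 : R →+* E) (hy0 : ∀ i, y0 (u i) = 0) :
    RingHom.ker (L.α 0) ≤ RingHom.ker y0 := by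
  classical
  obtain ⟨P, hPmin⟩ := twd_exists_minimalPrimes_ker hd0 (L.α 0)
  haveI hPprime : P.IsPrime := hPmin.1.1
  obtain ⟨-, hPdim⟩ := twd_minimalPrimes_ker_props (L.α 0) L.σ (L.α_σ 0) hPmin
  have hun : ∀ i, L.un i ∈ P := fun i => hPmin.1.2 ((RingHom.mem_ker).2 (L.α_un i))
  exact hPmin.1.2.trans (hbase L.un L.un_u P hPprime hun hPdim y0 hy0)

/-- the EXACT form of the base hypothesis (`𝔠 = ⊥`, cases (d0), (II)): the unramified quotient
`R ⧸ (u)` is irreducible of dimension `≤ dim S`. -/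
theorem m59d_hbase_of_irr (h𝔠 : ∀ i, 𝔠 i = ⊥)
    (hirr : (nilradical (R ⧸ Ideal.span (Set.range u))).IsPrime)
    (hudim : ringKrullDim (R ⧸ Ideal.span (Set.range u)) ≤ ringKrullDim S) :
    ∀ w : ι → R, (∀ i, w i - u i ∈ 𝔠 i) → ∀ P : Ideal R, P.IsPrime → (∀ i, w i ∈ P) →
      ringKrullDim S ≤ ringKrullDim (R ⧸ P) → ∀ y0 : R →+* E, (∀ i, y0 (u i) = 0) →
        P ≤ RingHom.ker y0 := by
  classical
  intro w hw P hP hwP hPdim y0 hy0
  set Iu : Ideal R := Ideal.span (Set.range u) with hIu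
  have hwu : ∀ i, w i = u i := by
    intro i
    have := hw i
    rw [h𝔠 i, Ideal.mem_bot, sub_eq_zero] at this
    exact this
  have hIuP : Iu ≤ P := by
    rw [hIu, Ideal.span_le]
    rintro _ ⟨i, rfl⟩
    rw [← hwu i]
    exact hwP i
  have hIuy : Iu ≤ RingHom.ker y0 := by
    rw [hIu, Ideal.span_le]
    rintro _ ⟨i, rfl⟩
    exact (RingHom.mem_ker).2 (hy0 i)
  -- `P / Iu` lies in the nilradical of `R / Iu`
  have hnil : P.map (Ideal.Quotient.mk Iu) ≤ nilradical (R ⧸ Iu) := by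
    by_contra hK
    have h2 : ringKrullDim ((R ⧸ Iu) ⧸ P.map (Ideal.Quotient.mk Iu)) + 1 ≤ ringKrullDim (R ⧸ Iu) :=
      twd_dim_quot_add_one_le hirr _ hK
    have heq : ringKrullDim ((R ⧸ Iu) ⧸ P.map (Ideal.Quotient.mk Iu)) = ringKrullDim (R ⧸ P) :=
      ringKrullDim_eq_of_ringEquiv (DoubleQuot.quotQuotEquivQuotOfLE hIuP)
    rw [heq] at h2
    have h3 : ringKrullDim (R ⧸ P) + 1 ≤ ringKrullDim (R ⧸ P) :=
      h2.trans (hudim.trans hPdim)
    have hbot : ringKrullDim (R ⧸ P) ≠ ⊥ := by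
      haveI : Nontrivial (R ⧸ P) := Ideal.Quotient.nontrivial_iff.2 hP.ne_top
      intro hb
      have h0 : (0 : WithBot ℕ∞) ≤ ringKrullDim (R ⧸ P) := ringKrullDim_nonneg_of_nontrivial
      rw [hb] at h0
      exact absurd h0 (by simp)
    have htop : ringKrullDim (R ⧸ P) ≠ ⊤ := by
      intro ht
      have := ringKrullDim_quotient_le P
      rw [ht, top_le_iff] at this
      exact ringKrullDim_ne_top this
    obtain ⟨x, hx⟩ := WithBot.ne_bot_iff_exists.1 hbot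
    rw [← hx] at h3 htop
    have hxt : x ≠ ⊤ := fun h => htop (by rw [h]; rfl)
    obtain ⟨n, rfl⟩ := ENat.ne_top_iff_exists.1 hxt
    have : ((n + 1 : ℕ) : WithBot ℕ∞) ≤ ((n : ℕ) : WithBot ℕ∞) := by
      have e : (((n : ℕ∞) : WithBot ℕ∞) + 1) = ((n + 1 : ℕ) : WithBot ℕ∞) := by
        push_cast
        rfl
      rw [← e]
      exact h3
    have : n + 1 ≤ n := by exact_mod_cast this
    omega
  intro f hf
  have h1 : Ideal.Quotient.mk Iu f ∈ nilradical (R ⧸ Iu) := hnil (Ideal.mem_map_of_mem _ hf)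
  obtain ⟨n, hn⟩ := (mem_nilradical.1 h1)
  rw [← map_pow, Ideal.Quotient.eq_zero_iff_mem] at hn
  have h2 : f ^ n ∈ RingHom.ker y0 := hIuy hn
  haveI : (RingHom.ker y0).IsPrime := RingHom.ker_isPrime y0
  exact Ideal.IsPrime.mem_of_pow_mem inferInstance n h2

/-- **THE ENGINE ALGEBRA.** -/
theorem m59d_chain_main (hd0 : 0 < d 0) (hlamS0 : algebraMap O S lam ≠ 0)
    (L : m59d_ChainLimit O S R T0 d e EE 𝔞 j θ u 𝔠 ν β γ r s)
    (hθalg : ∀ a : O, θ (algebraMap O S a) = algebraMap O T0 a)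
    (x₂ : T0 →+* E) (hθ : ∀ t ∈ 𝔞, x₂ (θ t) = 0)
    (hgen : Subring.closure (Set.range γ ∪ Set.range θ) = ⊤)
    (hdim : ringKrullDim R ≤ ringKrullDim S)
    (hbase : ∀ w : ι → R, (∀ i, w i - u i ∈ 𝔠 i) → ∀ P : Ideal R, P.IsPrime → (∀ i, w i ∈ P) →
      ringKrullDim S ≤ ringKrullDim (R ⧸ P) → ∀ y0 : R →+* E, (∀ i, y0 (u i) = 0) →
        P ≤ RingHom.ker y0)
    (hpts : ∀ x : R →+* E, (∀ c, x (ν c) = x₂ (β c)) →
      (∀ a : O, x (algebraMap O R a) = x₂ (algebraMap O T0 a)) →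
      ∃ y : Fin (m + 1) → (R →+* E), y (Fin.last m) = x ∧ (∀ i, y 0 (u i) = 0) ∧
        (∀ k : Fin m, y k.castSucc (s k) = 0) ∧
        ∀ (k : Fin m) (P : Ideal R), P ∈ minimalPrimes R →
          ringKrullDim S ≤ ringKrullDim (R ⧸ P) → algebraMap O R lam ∉ P → r k ∈ P →
          P ≤ RingHom.ker (y k.castSucc) → P ≤ RingHom.ker (y k.succ)) :
    RingHom.ker j ≤ RingHom.ker x₂ := by
  classical
  have hx : ∀ c, (x₂.comp L.π) (ν c) = x₂ (β c) := by
    intro c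
    rw [RingHom.comp_apply, L.π_ν]
  have hxalg : ∀ a : O, (x₂.comp L.π) (algebraMap O R a) = x₂ (algebraMap O T0 a) := by
    intro a
    rw [RingHom.comp_apply, ← L.σ_algebraMap a, L.π_σ, hθalg a]
  obtain ⟨y, hylast, hyu, hys, hLOC⟩ := hpts (x₂.comp L.π) hx hxalg
  have hy0 := m59d_base hd0 L hbase (y 0) hyu
  have hwalk := m59d_walk_fin d e L.σ L.α L.α_σ L.αN L.αN_σ L.p L.q L.j' L.ρ' L.Z L.X EE r s
    L.p_q L.p_α L.j'_ρ' L.j'_α L.X_comm L.X_nil L.j'_Z L.αN_r hdim y hy0 hys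
    (by
      intro k P hPmin hPdim hPS hrP hPy
      refine hLOC k P hPmin hPdim ?_ hrP hPy
      intro hlamP
      rw [← L.σ_algebraMap] at hlamP
      exact hlamS0 (hPS _ hlamP))
  have hker : RingHom.ker (L.α (Fin.last m)) ≤ RingHom.ker (x₂.comp L.π) := by
    rw [← hylast]
    exact hwalk (Fin.last m)
  have hπ : Function.Surjective L.π := by
    rw [← RingHom.range_eq_top, eq_top_iff, ← hgen, Subring.closure_le]
    rintro τ (⟨c, rfl⟩ | ⟨t, rfl⟩)
    · exact ⟨L.νn c, L.π_νn c⟩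
    · exact ⟨L.σ t, L.π_σ t⟩
  refine m59d_end_surj L.σ (L.α (Fin.last m)) (L.α_σ (Fin.last m)) 𝔞 j L.π x₂ hπ L.α_mod ?_ hker
  intro t ht
  rw [L.π_σ]
  exact hθ t ht

end Fermat.Agent.M59
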