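/-
S59 / block [D'] (helper25).  Prefix `m59d_`.

`m59d_chain_patch` = `m59d_chain_exists_limit` + `m59d_chain_main`: THE [D'] SEAM OF THE S59 ENGINE.
Level data for all `n` + (B1) + the base hypothesis `hbase` (`m59d_hbase_of_irr` for the exact
case `𝔠 = ⊥`) + the points with (LOC) give
`ker j ≤ ker x₂` (the eigensystem of `W` factors through the Hecke ring of `M_∅(B')`).
-/
import Mathlib
import Fermat.Agent.M59.D.ChainLimit
import Fermat.Agent.M59.D.ChainMain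

set_option autoImplicit false

namespace Fermat.Agent.M59

open Fermat.Agent.TW

open IsLocalRing

universe uO uS uR uT

variable {O : Type uO} [CommRing O] {lam : O}
  {S : Type uS} [CommRing S] [Algebra O S] [IsDomain S] [IsNoetherianRing S] [IsLocalRing S]
  [IsAdicComplete (maximalIdeal S) S]
  {R : Type uR} [CommRing R] [Algebra O R] [IsNoetherianRing R] [IsLocalRing R]
  [IsAdicComplete (maximalIdeal R) R]
  {T0 : Type uT} [CommRing T0] [Algebra O T0]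
  [IsAdicComplete (Ideal.span {algebraMap O T0 lam}) T0]
  {E : Type*} [CommRing E] [IsDomain E]
  {m : ℕ} {d : Fin (m + 1) → ℕ} {e : Fin m → ℕ} {EE : ℕ}
  {𝔞 : Ideal S} {j : T0 →+* Matrix (Fin (d (Fin.last m))) (Fin (d (Fin.last m))) (S ⧸ 𝔞)}
  {θ : S →+* T0} {ι κ K : Type*} [Finite K] [Finite ι] {u : ι → R} {𝔠 : ι → Ideal R} {ν : κ → R}
  {β : κ → T0} {γ : K → T0} {r s : Fin m → R}

/-- **[D'] = PATCH + WALK + END.** -/
theorem m59d_chain_patch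
    (hS : ∀ k, Finite (S ⧸ maximalIdeal S ^ k)) (hR : ∀ k, Finite (R ⧸ maximalIdeal R ^ k))
    (hT0 : ∀ k, Finite (T0 ⧸ (Ideal.span {algebraMap O T0 lam}) ^ k))
    (hlamS : algebraMap O S lam ∈ maximalIdeal S) (hlamS0 : algebraMap O S lam ≠ 0)
    (hθalg : ∀ a : O, θ (algebraMap O S a) = algebraMap O T0 a)
    (hd0 : 0 < d 0)
    (𝔟 : ℕ → Ideal S) (h𝔟𝔞 : ∀ n, 𝔟 n ≤ 𝔞) (h𝔟 : ∀ n, 𝔟 n ≤ maximalIdeal S ^ n)
    (Lv : ∀ n, m59d_ChainLevel O S R T0 d e EE 𝔞 (𝔟 n) (h𝔟𝔞 n) j θ u 𝔠 ν β γ r s)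
    (x₂ : T0 →+* E) (hθ : ∀ t ∈ 𝔞, x₂ (θ t) = 0)
    (hgen : Subring.closure (Set.range γ ∪ Set.range θ) = ⊤)
    (hdim : ringKrullDim R ≤ ringKrullDim S)
    (hbase : ∀ w : ι → R, (∀ i, w i - u i ∈ 𝔠 i) → ∀ P : Ideal R, P.IsPrime → (∀ i, w i ∈ P) →
      ringKrullDim S ≤ ringKrullDim (R ⧸ P) → ∀ y0 : R →+* E, (∀ i, y0 (u i) = 0) →
        P ≤ RingHom.ker y0)
    (hpts : ∀ x : R →+* E, (∀ c, x (ν c) = x₂ (β c)) →
      (∀ a : O, x (algebraMap O R a) = x₂ (algebraMap O T0 a)) →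
      ∃ y : Fin (m + 1) → (R →+* E), y (Fin.last m) = x ∧ (∀ i, y 0 (u i) = 0) ∧
        (∀ k : Fin m, y k.castSucc (s k) = 0) ∧
        ∀ (k : Fin m) (P : Ideal R), P ∈ minimalPrimes R →
          ringKrullDim S ≤ ringKrullDim (R ⧸ P) → algebraMap O R lam ∉ P → r k ∈ P →
          P ≤ RingHom.ker (y k.castSucc) → P ≤ RingHom.ker (y k.succ)) :
    RingHom.ker j ≤ RingHom.ker x₂ := by
  obtain ⟨L⟩ := m59d_chain_exists_limit (lam := lam) hS hR hT0 hlamS hθalg 𝔟 h𝔟𝔞 h𝔟 Lv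
  exact m59d_chain_main lam hd0 hlamS0 L hθalg x₂ hθ hgen hdim hbase hpts

end Fermat.Agent.M59
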